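/-
Project BAD, layer CORE: SKELETON of the proof of the abstract theorem (architect helper98,
sub-architect of the proof: helper192).  Never imported by a graded file.
Each node goes to its own file `Fermat/Agent/BAD/Core/<Name>.lean`.
-/
import Fermat.Agent.BAD.Core.Hyp

set_option autoImplicit false

namespace Fermat.Agent.BAD

variable {K F₁ F₂ : Type*} [Field K] [Field F₁] [Field F₂] [Algebra K F₁] [Algebra K F₂]
  {A : ValuationSubring K} {q n : ℕ} {α β : F₁ →ₐ[K] F₂}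
  {Vi V0 : ValuationSubring F₁} {W20 W11 W02 : ValuationSubring F₂}
  {oi : Ord Vi} {o0 : Ord V0} {o20 : Ord W20} {o11 : Ord W11} {o02 : Ord W02}
  {P₁ : Set (LocalSubring F₁)} {P₂ : Set (LocalSubring F₂)}

/-- the class of elements we work with: horizontal divisor divisible by `n`, both norms trivial -/
def Good (K : Type*) {F₁ F₂ : Type*} [Field K] [Field F₁] [Field F₂] [Algebra K F₁] [Algebra K F₂]
    (n : ℕ) (α β : F₁ →ₐ[K] F₂) (u : F₂) : Prop :=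
  u ≠ 0 ∧ HDiv K n u ∧ KPow K n (normAlong (α : F₁ →+* F₂) u) ∧
    KPow K n (normAlong (β : F₁ →+* F₂) u)

/-! ### Step 1 : vertical orders.
`a20 + a11 ≡ q a02`, `q a20 ≡ a11 + a02 (mod n)` (compare the orders of `Nm u = c g ^ n` at `V∞` and
`V0`), hence `(q+1)(a20,a11,a02) ≡ (q+1) a20 (1,q-1,1)`; divide by a power of `q` and by an `n`-th
power (`approx_ord`). -/
theorem step1 (H : CoreHyp A q n α β Vi V0 W20 W11 W02 oi o0 o20 o11 o02 P₁ P₂) {u : F₂}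
    (hu : Good K n α β u) :
    ∃ u₁ : F₂, Good K n α β u₁ ∧ IsU W20 u₁ ∧ IsU W11 u₁ ∧ IsU W02 u₁ ∧
      KPow K n (u ^ (q + 1) / u₁) := by
  sorry

/-! ### Step 2 : residues.
`β (Nm_β u) ≡ u ^ q [W20]`, `α (Nm_α u) ≡ u ^ q [W02]`, `Nm_α u ≡ x20 x11 ^ (q-1) [V∞]`; constants
are `n`-th powers (`hens`), `gcd (q, n) = 1`. So `u ^ (q-1)` is congruent to an `n`-th power at each
of the three valuations; divide by an `n`-th power (`approx_res`). -/
theorem step2 (H : CoreHyp A q n α β Vi V0 W20 W11 W02 oi o0 o20 o11 o02 P₁ P₂) {u : F₂}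
    (hu : Good K n α β u) (h20 : IsU W20 u) (h11 : IsU W11 u) (h02 : IsU W02 u) :
    ∃ u₂ : F₂, Good K n α β u₂ ∧ Cong W20 u₂ 1 ∧ Cong W11 u₂ 1 ∧ Cong W02 u₂ 1 ∧
      KPow K n (u ^ (q - 1) / u₂) := by
  sorry

/-! ### Step 3 : gluing data. -/

/-- a local decomposition of `u` at a triple point -/
structure Decomp (W20 W11 W02 : ValuationSubring F₂) (n : ℕ) (u : F₂) (O : LocalSubring F₂)
    (h η20 η11 η02 : F₂) : Prop where
  h_ne : h ≠ 0
  unit : UnitIn O.toSubring (u / h ^ n)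
  u20 : UnitIn O.toSubring η20
  u11 : UnitIn O.toSubring η11
  u02 : UnitIn O.toSubring η02
  c20 : Cong W20 h η20
  c11 : Cong W11 h η11
  c02 : Cong W02 h η02

/-- (3a) points on one component: `fact` + `Branch`. -/
theorem locTriv_of_single (H : CoreHyp A q n α β Vi V0 W20 W11 W02 oi o0 o20 o11 o02 P₁ P₂)
    {u : F₂} (hu0 : u ≠ 0) (hu : HDiv K n u) (h20 : Cong W20 u 1) (h11 : Cong W11 u 1)
    (h02 : Cong W02 u 1) {O : LocalSubring F₂} (hO : O ∈ P₂)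
    (hs : ∀ W ∈ ({W20, W11, W02} : Set (ValuationSubring F₂)),
      ∀ W' ∈ ({W20, W11, W02} : Set (ValuationSubring F₂)), Through W O → Through W' O → W = W') :
    LocTriv {W20, W11, W02} n u O := by
  sorry

/-- (3b) existence of a decomposition at a triple point: `fact` + `Branch`. -/
theorem exists_decomp (H : CoreHyp A q n α β Vi V0 W20 W11 W02 oi o0 o20 o11 o02 P₁ P₂)
    {u : F₂} (hu0 : u ≠ 0) (hu : HDiv K n u) (h20 : Cong W20 u 1) (h11 : Cong W11 u 1)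
    (h02 : Cong W02 u 1) {O : LocalSubring F₂} (hO : O ∈ P₂)
    (hT : TriplePoint (α : F₁ →+* F₂) (β : F₁ →+* F₂) Vi V0 W20 W11 W02 P₁ O) :
    ∃ h η20 η11 η02 : F₂, Decomp W20 W11 W02 n u O h η20 η11 η02 := by
  sorry

/-- (3c) the norm along `α`: `Nm_α u = c g ^ n`, `g ≡ d∞ [V∞]`, `g ≡ d0 [V0]` with constants
`d∞, d0`; `ζα = d0 / d∞`.  At a triple point `θ = Nm_α h / g` is a unit of `O₁` (`root₁`), and
`θ d∞ ≡ η20 η11 ^ (q-1)`, `θ d0 ≡ η02 ^ q` modulo the maximal ideal of `O`. -/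
theorem exists_const_alpha (H : CoreHyp A q n α β Vi V0 W20 W11 W02 oi o0 o20 o11 o02 P₁ P₂)
    {u : F₂} (hu : Good K n α β u) (h20 : Cong W20 u 1) (h11 : Cong W11 u 1)
    (h02 : Cong W02 u 1) :
    ∃ ζ : K, ζ ^ n = 1 ∧ ∀ O ∈ P₂,
      TriplePoint (α : F₁ →+* F₂) (β : F₁ →+* F₂) Vi V0 W20 W11 W02 P₁ O →
      ∀ h η20 η11 η02 : F₂, Decomp W20 W11 W02 n u O h η20 η11 η02 →
        InMax O (η02 ^ q - algebraMap K F₂ ζ * (η20 * η11 ^ (q - 1))) := by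
  sorry

/-- (3c') the norm along `β`. -/
theorem exists_const_beta (H : CoreHyp A q n α β Vi V0 W20 W11 W02 oi o0 o20 o11 o02 P₁ P₂)
    {u : F₂} (hu : Good K n α β u) (h20 : Cong W20 u 1) (h11 : Cong W11 u 1)
    (h02 : Cong W02 u 1) :
    ∃ ζ : K, ζ ^ n = 1 ∧ ∀ O ∈ P₂,
      TriplePoint (α : F₁ →+* F₂) (β : F₁ →+* F₂) Vi V0 W20 W11 W02 P₁ O →
      ∀ h η20 η11 η02 : F₂, Decomp W20 W11 W02 n u O h η20 η11 η02 →
        InMax O (η11 ^ (q - 1) * η02 - algebraMap K F₂ ζ * η20 ^ q) := by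
  sorry

/-- (3d) assembly of step 3: `η20 ^ (q²-1) ≡ ζα ζβ ^ (-q) η11 ^ (q²-1)`,
`η02 ^ (q²-1) ≡ ζα ^ q ζβ⁻¹ η11 ^ (q²-1)`; divide `u ^ (q²-1)` by `g ^ n`, where `g` is congruent to
these constants (`approx_res`), which are `n`-th roots of unity. -/
theorem step3 (H : CoreHyp A q n α β Vi V0 W20 W11 W02 oi o0 o20 o11 o02 P₁ P₂) {u : F₂}
    (hu : Good K n α β u) (h20 : Cong W20 u 1) (h11 : Cong W11 u 1) (h02 : Cong W02 u 1) :
    ∃ u₃ : F₂, u₃ ≠ 0 ∧ HDiv K n u₃ ∧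
      (∀ W ∈ ({W20, W11, W02} : Set (ValuationSubring F₂)), Cong W u₃ 1) ∧
      (∀ O ∈ P₂, LocTriv {W20, W11, W02} n u₃ O) ∧ KPow K n (u ^ (q ^ 2 - 1) / u₃) := by
  sorry

/-! ### The abstract theorem -/
theorem core (H : CoreHyp A q n α β Vi V0 W20 W11 W02 oi o0 o20 o11 o02 P₁ P₂) {u : F₂}
    (hu0 : u ≠ 0) (hu : HDiv K n u) (hα : KPow K n (normAlong (α : F₁ →+* F₂) u))
    (hβ : KPow K n (normAlong (β : F₁ →+* F₂) u)) :
    KPow K n (u ^ ((q ^ 2 - 1) ^ 2)) := by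
  sorry

end Fermat.Agent.BAD
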